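import Mathlib
import Fermat.Prelude.Def_FLTPrelim_FreyPackage
import Fermat.Prelude.Def_FLTPrelim_GaloisRep
import Fermat.Prelude.Def_FLTPrelim_Modularity
import Fermat.Prelude.Def_FLTPrelim_ModularRep
import Fermat.Prelude.Def_FLTPrelim_Ramification
import Fermat.Prelude.Def_FLTPrelim_CofixedLine
import Fermat.Prelude.Def_FreyPackage_IsConductorLevel
import Fermat.Prelude.Def_WeierstrassCurve_Mlc1RowStatement
import Fermat.Prelude.Def_CuspForm_IntegralLattice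
import Fermat.Prelude.Def_FormalHecke_Eigensystem
import Fermat.Prelude.Def_ModularForm_EisensteinChiNegThree
import Fermat.Prelude.Def_LanglandsTunnell_WeightOneRealizationCarriers

/-!
# W-CHAIN (item 77): the statements of the chain, as `Prop`s (helper4)

Every `Stmt_SNN` below is the type of the frozen statement `SNN`, written out as a closed `Prop`
(no constant of `Fermat.Statements` is cited; this file imports the prelude only).  The chain files
prove implications between these `Prop`s, so that the Langlands-Tunnell row (S46 / S47 / S50) is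
the single statement that is still to be supplied.

* rows that are still open: `Stmt_S50`, `Stmt_S46`, `Stmt_S47` (row 42), `Stmt_S60`, `Stmt_S04`,
  `Stmt_S06`, `Stmt_S03`, `Stmt_S01`;
* rows that are landed (used as hypotheses in the light files, so that they build in a small
  closure): `Stmt_S51`, `Stmt_S52`, `Stmt_S59`;
* `Stmt_LT9`: the STRONG form of S50 (the level is not divisible by `9`); this is what the frozen
  S59 consumes at `p = 3`;
* `Stmt_LL3`: the lowering at `3` that turns the frozen S50 (whose level may be divisible by `9`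
  when the `3`-torsion has no inertia-fixed point) into `Stmt_LT9`.
-/

set_option autoImplicit false

open WeierstrassCurve WeierstrassCurve.Affine WeierstrassCurve.Affine.Point
open scoped WeierstrassCurve.Affine
open CuspForm

namespace Fermat.Agent.W.Chain

/-- The type of the frozen S01. -/
def Stmt_S01 : Prop :=
  ∀ (n : ℕ) (_ : 3 ≤ n) (a b c : ℕ) (_ : 0 < a) (_ : 0 < b) (_ : 0 < c), a ^ n + b ^ n ≠ c ^ n

/-- The type of the frozen S03. -/
def Stmt_S03 : Prop := ∀ _ : FreyPackage, False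

/-- The type of the frozen S04. -/
def Stmt_S04 : Prop := ∀ P : FreyPackage, P.freyCurve.IsModular

/-- The type of the frozen S06. -/
def Stmt_S06 : Prop :=
  ∀ P : FreyPackage, ∃ N : ℕ, P.IsConductorLevel N ∧ P.ModularRepOfLevel N

/-- The type of the frozen S60. -/
def Stmt_S60 : Prop :=
  ∀ (W : WeierstrassCurve ℤ) (_ : W.Δ ≠ 0) (_ : W.IsSemistableModel),
    (W.map (Int.castRingHom ℚ)).IsModular

/-- The type of the frozen S51. -/
def Stmt_S51 : Prop :=
  ∀ (W : WeierstrassCurve ℤ) (_ : W.Δ ≠ 0) (_ : W.IsSemistableModel),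
    W.ModRepIsIrreducible 3 ∨ W.ModRepIsIrreducible 5

/-- The type of the frozen S52. -/
def Stmt_S52 : Prop :=
  ∀ (W : WeierstrassCurve ℤ) (_ : W.Δ ≠ 0) (_ : W.IsSemistableModel)
    (_ : W.ModRepIsIrreducible 5),
    ∃ W' : WeierstrassCurve ℤ, W'.Δ ≠ 0 ∧ W'.IsSemistableModel ∧ W'.ModRepIsIrreducible 3 ∧
      ∀ ℓ : ℕ, ℓ.Prime → W.IsGoodPrimeFor ℓ → W'.IsGoodPrimeFor ℓ → ℓ ≠ 5 →
        (5 : ℤ) ∣ (W'.apOfModel ℓ - W.apOfModel ℓ)

/-- The type of the frozen S59. -/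
def Stmt_S59 : Prop :=
  ∀ (p : ℕ) (_ : p = 3 ∨ p = 5)
    (W : WeierstrassCurve ℤ) (_ : W.Δ ≠ 0) (_ : W.IsSemistableModel)
    (_ : W.ModRepIsIrreducible p)
    (M₀ : ℕ) [NeZero M₀] (_ : W.IsResiduallyModularOfLevel p M₀)
    (_ : ¬ p ^ 2 ∣ M₀)
    (_ : ∀ q : ℕ, q.Prime → q ≠ p → ¬ q ^ 3 ∣ M₀),
    Mlc1IsModularModelOfExactConductorLevel W

/-- The type of the frozen S50. -/
def Stmt_S50 : Prop :=
  ∀ (W : WeierstrassCurve ℤ) (_ : W.Δ ≠ 0) (_ : W.IsSemistableModel)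
    (_ : W.ModRepIsIrreducible 3),
    ∃ M : ℕ, 0 < M ∧ W.IsResiduallyModularOfLevel 3 M ∧
      (∀ q : ℕ, q.Prime → q ≠ 3 → ¬ q ^ 3 ∣ M) ∧
      (3 ^ 2 ∣ M →
        ∀ A : ValuationSubring (AlgebraicClosure ℚ), A.LiesOverPrime 3 →
          ∀ x : Submodule.torsionBy ℤ
              ((W.map (Int.castRingHom ℚ))⁄(AlgebraicClosure ℚ)).Point (3 : ℕ),
            (∀ σ ∈ A.inertiaSubgroupIn ℚ, σ • x = x) → x = 0)

/-- The type of the frozen S46. -/
def Stmt_S46 : Prop :=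
  ∀ W : WeierstrassCurve ℤ, W.Δ ≠ 0 → W.IsSemistableModel → W.ModRepIsIrreducible 3 →
    ∃ (N : ℕ) (_ : NeZero N) (a : ℕ → ℤ),
      CuspForm.HasIntegralBasis N ∧
      FormalHecke.IsEigensystem
        (fun ℓ => if ℓ ∣ N then 0 else ((EisensteinWeightOne.chiNegThree ℓ : ℤ) : ℤ)) a ∧
      CuspForm.IsLatticeRealized N a ∧
      (∀ q : ℕ, q.Prime → q ≠ 3 → ¬ q ^ 3 ∣ N) ∧
      ∀ ℓ : ℕ, ℓ.Prime → W.IsGoodPrimeFor ℓ → ¬ ℓ ∣ N → ℓ ≠ 3 →
        (3 : ℤ) ∣ (a ℓ - W.apOfModel ℓ)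

open AutomorphicForm FLT.ExplicitLift EisensteinWeightOne in
open scoped MatrixGroups in
/-- The type of the frozen S47. -/
def Stmt_S47 : Prop :=
  ∀ (ρ : (AlgebraicClosure ℚ ≃ₐ[ℚ] AlgebraicClosure ℚ) →* GL (Fin 2) (ZMod 3))
    (_ : Continuous ρ) (_ : Function.Surjective ρ)
    (_ : ∀ σ : (AlgebraicClosure ℚ ≃ₐ[ℚ] AlgebraicClosure ℚ),
      Matrix.GeneralLinearGroup.det (ρ σ) = modThreeCyclotomicChar σ)
    (Ψ : GL (Fin 2) (ZMod 3) →* GL (Fin 2) (ℤ√(-2)))
    (_ : ∀ g, Matrix.GeneralLinearGroup.map red (Ψ g) = g),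
    ∃ (N : ℕ) (_ : NeZero N) (b : ℕ → ℤ√(-2)),
      FormalHecke.IsEigensystem
        (fun ℓ => if ℓ ∣ N then 0 else ((chiNegThree ℓ : ℤ) : ℤ√(-2))) b ∧
      CuspForm.IsWeightOneChiNegThreeRealized N b ∧
      ∀ p : ℕ, p.Prime → ¬ p ∣ 3 * N →
        ∀ A : ValuationSubring (AlgebraicClosure ℚ), A.LiesOverPrime p →
          ∀ σ : (AlgebraicClosure ℚ ≃ₐ[ℚ] AlgebraicClosure ℚ), A.IsFrobeniusAt σ p →
            b p = ((Ψ (ρ σ) : GL (Fin 2) (ℤ√(-2))) :
              Matrix (Fin 2) (Fin 2) (ℤ√(-2))).trace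

/-- **Strong Langlands-Tunnell** (what the frozen S59 consumes at `p = 3`): residual modularity
at `3` of a level not divisible by `9` and cube-free away from `3`. -/
def Stmt_LT9 : Prop :=
  ∀ (W : WeierstrassCurve ℤ) (_ : W.Δ ≠ 0) (_ : W.IsSemistableModel)
    (_ : W.ModRepIsIrreducible 3),
    ∃ M : ℕ, 0 < M ∧ W.IsResiduallyModularOfLevel 3 M ∧ ¬ 3 ^ 2 ∣ M ∧
      ∀ q : ℕ, q.Prime → q ≠ 3 → ¬ q ^ 3 ∣ M

/-- **Lowering at 3** (the one link between the frozen S50 and `Stmt_LT9`): a semistable curve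
with irreducible mod-3 representation whose `3`-torsion has no nonzero inertia-fixed point at `3`,
residually modular at `3` of a level `M` with `9 ∣ M`, cube-free away from `3`, is residually
modular at `3` of a level not divisible by `9`, cube-free away from `3`. -/
def Stmt_LL3 : Prop :=
  ∀ (W : WeierstrassCurve ℤ) (_ : W.Δ ≠ 0) (_ : W.IsSemistableModel)
    (_ : W.ModRepIsIrreducible 3) (M : ℕ) (_ : 0 < M) (_ : 3 ^ 2 ∣ M)
    (_ : W.IsResiduallyModularOfLevel 3 M)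
    (_ : ∀ q : ℕ, q.Prime → q ≠ 3 → ¬ q ^ 3 ∣ M)
    (_ : ∀ A : ValuationSubring (AlgebraicClosure ℚ), A.LiesOverPrime 3 →
          ∀ x : Submodule.torsionBy ℤ
              ((W.map (Int.castRingHom ℚ))⁄(AlgebraicClosure ℚ)).Point (3 : ℕ),
            (∀ σ ∈ A.inertiaSubgroupIn ℚ, σ • x = x) → x = 0),
    ∃ M' : ℕ, 0 < M' ∧ W.IsResiduallyModularOfLevel 3 M' ∧ ¬ 3 ^ 2 ∣ M' ∧
      ∀ q : ℕ, q.Prime → q ≠ 3 → ¬ q ^ 3 ∣ M'

/-- The frozen S50 and the lowering at `3` give the strong form. -/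
theorem lt9_of_s50_of_ll3 (h50 : Stmt_S50) (hLL : Stmt_LL3) : Stmt_LT9 := by
  intro W hΔ hW h3
  obtain ⟨M, hM, hres, hcube, hclause⟩ := h50 W hΔ hW h3
  by_cases h9 : 3 ^ 2 ∣ M
  · exact hLL W hΔ hW h3 M hM h9 hres hcube (hclause h9)
  · exact ⟨M, hM, hres, h9, hcube⟩

end Fermat.Agent.W.Chain
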