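import Fermat.Agent.W.Chain.H59_Top
import Fermat.Agent.W.LL3.H4_LL3Final

/-!
# W-CHAIN (item 77): everything below row 42 from the frozen S50 ALONE (helper4, assembly)

The lowering at 3 is landed and unconditional (`Fermat.Agent.W.LL3.stmt_LL3`), so the chain of
`W/Chain/H59_Top.lean` (helper59) has ONE hypothesis left, the frozen S50 as the `Prop`
`Stmt_S50`:

    s60_of_s50_closed, s04_of_s50_closed, s06_of_s50_closed, s03_of_s50_closed,
    s01_of_s50_closed : Stmt_S50 → Stmt_S01.

These are NOT solutions of S60, S04, S06, S03, S01 (each has the hypothesis `Stmt_S50`, which is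
the open row 42).  Every `Stmt_SNN` is the frozen type of `SNN` (checked: `W/Chain/Defs.lean`).
-/

set_option autoImplicit false

namespace Fermat.Agent.W.Chain

/-- **S60 from the frozen S50.** -/
theorem s60_of_s50_closed (h50 : Stmt_S50) : Stmt_S60 :=
  H59.s60_of_s50 h50 Fermat.Agent.W.LL3.stmt_LL3

/-- **S04 from the frozen S50.** -/
theorem s04_of_s50_closed (h50 : Stmt_S50) : Stmt_S04 :=
  H59.s04_of_s50 h50 Fermat.Agent.W.LL3.stmt_LL3

/-- **S06 from the frozen S50.** -/
theorem s06_of_s50_closed (h50 : Stmt_S50) : Stmt_S06 :=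
  H59.s06_of_s50 h50 Fermat.Agent.W.LL3.stmt_LL3

/-- **S03 from the frozen S50.** -/
theorem s03_of_s50_closed (h50 : Stmt_S50) : Stmt_S03 :=
  H59.s03_of_s50 h50 Fermat.Agent.W.LL3.stmt_LL3

/-- **S01 (Fermat's Last Theorem) from the frozen S50.** -/
theorem s01_of_s50_closed (h50 : Stmt_S50) : Stmt_S01 :=
  H59.s01_of_s50 h50 Fermat.Agent.W.LL3.stmt_LL3

end Fermat.Agent.W.Chain
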