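import Fermat.Agent.W.Chain.H4_Spine
import Fermat.Agent.S51
import Fermat.Agent.S52
import Fermat.Agent.S59

/-!
# W-CHAIN (item 77): the spine with the landed rows plugged in (helper4)

The landed results `S51.result`, `S52.result`, `S59.result` replace the row hypotheses of
`W/Chain/H4_Spine.lean`.  What is left as a hypothesis is the Langlands-Tunnell input alone:

* `s60_of_lt9`-type theorems take the STRONG form `Stmt_LT9` (level not divisible by `9`);
* `s60_of_s50_of_ll3` etc. take the frozen S50 (as the `Prop` `Stmt_S50`) and the lowering at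
  `3` (`Stmt_LL3`).
-/

set_option autoImplicit false

open WeierstrassCurve

namespace Fermat.Agent.W.Chain

/-- The landed S51, at the type `Stmt_S51`. -/
theorem landed_S51 : Stmt_S51 :=
  fun W hΔ hW => Fermat.Agent.S51.result W hΔ hW

/-- The landed S52, at the type `Stmt_S52`. -/
theorem landed_S52 : Stmt_S52 :=
  fun W hΔ hW h5 => Fermat.Agent.S52.result W hΔ hW h5

/-- The landed S59, at the type `Stmt_S59`. -/
theorem landed_S59 : Stmt_S59 :=
  fun p hp W hΔ hW hirr M₀ _ hres h1 h2 =>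
    Fermat.Agent.S59.result p hp W hΔ hW hirr M₀ hres h1 h2

/-- **Strong LT ⟹ exact-conductor modularity of every semistable curve.** -/
theorem mlc_of_lt9_final (hLT : Stmt_LT9) : Stmt_MLC :=
  mlc_of_lt9 landed_S51 landed_S52 landed_S59 hLT

/-- **Strong LT ⟹ S60.** -/
theorem s60_of_lt9_final (hLT : Stmt_LT9) : Stmt_S60 := s60_of_mlc (mlc_of_lt9_final hLT)

/-- **Strong LT ⟹ S04.** -/
theorem s04_of_lt9_final (hLT : Stmt_LT9) : Stmt_S04 := s04_of_mlc (mlc_of_lt9_final hLT)

/-- **Strong LT ⟹ S06.** -/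
theorem s06_of_lt9_final (hLT : Stmt_LT9) : Stmt_S06 := s06_of_mlc (mlc_of_lt9_final hLT)

/-- **S50 + lowering at 3 ⟹ S60.** -/
theorem s60_of_s50_of_ll3 (h50 : Stmt_S50) (hLL : Stmt_LL3) : Stmt_S60 :=
  s60_of_lt9_final (lt9_of_s50_of_ll3 h50 hLL)

/-- **S50 + lowering at 3 ⟹ S04.** -/
theorem s04_of_s50_of_ll3 (h50 : Stmt_S50) (hLL : Stmt_LL3) : Stmt_S04 :=
  s04_of_lt9_final (lt9_of_s50_of_ll3 h50 hLL)

/-- **S50 + lowering at 3 ⟹ S06.** -/
theorem s06_of_s50_of_ll3 (h50 : Stmt_S50) (hLL : Stmt_LL3) : Stmt_S06 :=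
  s06_of_lt9_final (lt9_of_s50_of_ll3 h50 hLL)

end Fermat.Agent.W.Chain
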