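import Fermat.Agent.W.Chain.Defs
import Fermat.Agent.S60.Wiring
import Fermat.Agent.S04.H4_Semistable
import Fermat.Agent.S06.H61_Wiring

/-!
# W-CHAIN (item 77): the spine, parametric in the landed rows (helper4)

All theorems here are implications between the `Prop`s of `W/Chain/Defs.lean`; the landed rows
S51, S52, S59 enter as hypotheses, so this file builds in a small closure (prelude + three light
wiring files).  `W/Chain/H4_Final.lean` instantiates the hypotheses with the landed results.

* `mlc_of_lt9`   : S51, S52, S59, strong LT  ⟹  every semistable curve is modular of its exact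
                   conductor level (`Stmt_MLC`);
* `s60_of_mlc`, `s06_of_mlc`, `s04_of_s60`, `s04_of_mlc`;
* `s60_of_s50_of_ll3_of_rows` etc.: the same from the frozen S50 and the lowering at 3.
-/

set_option autoImplicit false

open WeierstrassCurve

namespace Fermat.Agent.W.Chain

/-- Every semistable integral Weierstrass curve with nonzero discriminant is modular of its exact
conductor level (the conclusion of the frozen S59, for all semistable curves). -/
def Stmt_MLC : Prop :=
  ∀ (W : WeierstrassCurve ℤ) (_ : W.Δ ≠ 0) (_ : W.IsSemistableModel),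
    Mlc1IsModularModelOfExactConductorLevel W

/-- Strong LT and S59 at `p = 3`: exact-conductor modularity when the mod-3 representation is
irreducible. -/
theorem mlc_of_irr3 (h59 : Stmt_S59) (hLT : Stmt_LT9)
    (V : WeierstrassCurve ℤ) (hVΔ : V.Δ ≠ 0) (hV : V.IsSemistableModel)
    (hirr : V.ModRepIsIrreducible 3) : Mlc1IsModularModelOfExactConductorLevel V := by
  obtain ⟨M, hM, hres, h9, hcube⟩ := hLT V hVΔ hV hirr
  have hMne : NeZero M := ⟨hM.ne'⟩
  exact h59 3 (Or.inl rfl) V hVΔ hV hirr M hres h9 hcube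

/-- **S51 + S52 + S59 + strong LT ⟹ exact-conductor modularity of all semistable curves.** -/
theorem mlc_of_lt9 (h51 : Stmt_S51) (h52 : Stmt_S52) (h59 : Stmt_S59) (hLT : Stmt_LT9) :
    Stmt_MLC := by
  intro W hΔ hW
  rcases h51 W hΔ hW with hirr3 | hirr5
  · exact mlc_of_irr3 h59 hLT W hΔ hW hirr3
  · obtain ⟨W', hΔ', hW', hirr', hcong⟩ := h52 W hΔ hW hirr5
    obtain ⟨N, hN, hsq, hNbad, hmod⟩ := mlc_of_irr3 h59 hLT W' hΔ' hW' hirr'
    have hres : W.IsResiduallyModularOfLevel 5 N :=
      Fermat.Agent.S60.Wiring.isResiduallyModularOfLevel_of_congr W W' 5 Nat.prime_five N hNbad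
        hmod (fun ℓ hℓ h1 h2 h3 => by exact_mod_cast hcong ℓ hℓ h1 h2 h3)
    have hNne : NeZero N := ⟨hN.ne'⟩
    refine h59 5 (Or.inr rfl) W hΔ hW hirr5 N hres ?_ ?_
    · intro h25
      have h55 : (5 : ℕ) * 5 ∣ N := by simpa [pow_two] using h25
      have h1 : (5 : ℕ) = 1 := Nat.isUnit_iff.mp (hsq 5 h55)
      omega
    · intro q hq _ hq3
      have hqq : q * q ∣ N := Dvd.dvd.trans ⟨q, by ring⟩ hq3
      exact hq.one_lt.ne' (Nat.isUnit_iff.mp (hsq q hqq))

/-- Exact-conductor modularity gives the type of the frozen S60. -/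
theorem s60_of_mlc (h : Stmt_MLC) : Stmt_S60 :=
  fun W hΔ hW => Fermat.Agent.S60.Wiring.isModular_of_mlc1 W (h W hΔ hW)

/-- The type of S60 gives the type of S04 (the integral Frey curve is semistable). -/
theorem s04_of_s60 (h : Stmt_S60) : Stmt_S04 :=
  fun P => Fermat.Agent.S04.H4.frey_isModular_of_semistable_modular
    (fun W hΔ hW => h W hΔ hW) P

/-- Exact-conductor modularity gives the type of S04. -/
theorem s04_of_mlc (h : Stmt_MLC) : Stmt_S04 := s04_of_s60 (s60_of_mlc h)

/-- Exact-conductor modularity gives the type of S06 (the integral Frey curve is semistable with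
nonzero discriminant; its exact conductor level is a conductor level of the package). -/
theorem s06_of_mlc (h : Stmt_MLC) : Stmt_S06 :=
  fun P => Fermat.Agent.S06.H61.S06_of_exactConductorLevel P
    (h P.freyCurveInt (Fermat.Agent.S04.H4.freyCurveInt_Δ_ne_zero P)
      (Fermat.Agent.S04.H4.freyCurveInt_isSemistableModel P))

/-- **S60 from strong LT and the landed rows.** -/
theorem s60_of_lt9 (h51 : Stmt_S51) (h52 : Stmt_S52) (h59 : Stmt_S59) (hLT : Stmt_LT9) :
    Stmt_S60 := s60_of_mlc (mlc_of_lt9 h51 h52 h59 hLT)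

/-- **S60 from the frozen S50, the lowering at 3 and the landed rows.** -/
theorem s60_of_s50_of_ll3_of_rows (h51 : Stmt_S51) (h52 : Stmt_S52) (h59 : Stmt_S59)
    (h50 : Stmt_S50) (hLL : Stmt_LL3) : Stmt_S60 :=
  s60_of_lt9 h51 h52 h59 (lt9_of_s50_of_ll3 h50 hLL)

/-- **S04 from the frozen S50, the lowering at 3 and the landed rows.** -/
theorem s04_of_s50_of_ll3_of_rows (h51 : Stmt_S51) (h52 : Stmt_S52) (h59 : Stmt_S59)
    (h50 : Stmt_S50) (hLL : Stmt_LL3) : Stmt_S04 :=
  s04_of_s60 (s60_of_s50_of_ll3_of_rows h51 h52 h59 h50 hLL)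

/-- **S06 from the frozen S50, the lowering at 3 and the landed rows.** -/
theorem s06_of_s50_of_ll3_of_rows (h51 : Stmt_S51) (h52 : Stmt_S52) (h59 : Stmt_S59)
    (h50 : Stmt_S50) (hLL : Stmt_LL3) : Stmt_S06 :=
  s06_of_mlc (mlc_of_lt9 h51 h52 h59 (lt9_of_s50_of_ll3 h50 hLL))

end Fermat.Agent.W.Chain
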