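import Fermat.Agent.S49
import Fermat.Prelude.Def_FLTPrelim_ModularRep

/-!
# W-CHAIN (item 77): from the type of the frozen S46 to residual modularity at 3 (helper59)

`resMod_of_s46` : the type of the frozen S46 (a lattice-realised weight-one-type eigensystem,
congruent to the curve modulo 3) gives, with the landed lifting lemma `S49.result`,

  `∃ N, 0 < N ∧ W.IsResiduallyModularOfLevel 3 N ∧ ∀ q prime, q ≠ 3 → ¬ q ^ 3 ∣ N`,

i.e. the conclusion of the frozen S50 WITHOUT its clause at `9 ∣ N`.  (S46 says nothing on the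
power of 3 in `N`: the chain from S46 needs the lowering at 3 in its strong form.)
Closure: `S49` (10 modules).
-/

set_option autoImplicit false

open WeierstrassCurve CuspForm EisensteinWeightOne FormalHecke

namespace Fermat.Agent.W.Chain.H59

/-- The pointwise step: an S46-datum for `W` gives residual modularity at 3 of the same level. -/
theorem isResiduallyModularOfLevel_three_of_lattice (W : WeierstrassCurve ℤ)
    (N : ℕ) [NeZero N] (a : ℕ → ℤ) (hbasis : CuspForm.HasIntegralBasis N)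
    (heig : FormalHecke.IsEigensystem
      (fun ℓ => if ℓ ∣ N then 0 else ((chiNegThree ℓ : ℤ) : ℤ)) a)
    (hreal : CuspForm.IsLatticeRealized N a)
    (hcong : ∀ ℓ : ℕ, ℓ.Prime → W.IsGoodPrimeFor ℓ → ¬ ℓ ∣ N → ℓ ≠ 3 →
      (3 : ℤ) ∣ (a ℓ - W.apOfModel ℓ)) :
    W.IsResiduallyModularOfLevel 3 N := by
  obtain ⟨f, hf, 𝔪, h𝔪, h3, hc⟩ := Fermat.Agent.S49.result hbasis heig hreal
  refine ⟨f, 𝔪, hf, h𝔪, h3, ?_⟩
  intro ℓ hℓ hgood hℓN hℓ3
  obtain ⟨c, hcf, hcm⟩ := hc ℓ hℓ hℓN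
  refine ⟨c, hcf, ?_⟩
  obtain ⟨k, hk⟩ := hcong ℓ hℓ hgood hℓN hℓ3
  have h1 : ((a ℓ : ℤ) : integralClosure ℤ ℂ) - ((W.apOfModel ℓ : ℤ) : integralClosure ℤ ℂ)
      = ((3 : ℕ) : integralClosure ℤ ℂ) * ((k : ℤ) : integralClosure ℤ ℂ) := by
    rw [← Int.cast_sub, hk]
    push_cast
    rfl
  have h2 : ((a ℓ : ℤ) : integralClosure ℤ ℂ) - ((W.apOfModel ℓ : ℤ) : integralClosure ℤ ℂ) ∈ 𝔪 := by
    rw [h1]
    exact Ideal.mul_mem_right _ _ h3
  have h3' : c - ((W.apOfModel ℓ : ℤ) : integralClosure ℤ ℂ)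
      = (c - ((a ℓ : ℤ) : integralClosure ℤ ℂ))
        + (((a ℓ : ℤ) : integralClosure ℤ ℂ) - ((W.apOfModel ℓ : ℤ) : integralClosure ℤ ℂ)) := by
    ring
  rw [h3']
  exact 𝔪.add_mem hcm h2

/-- **S46 ⟹ S50 without the clause at 9.** -/
theorem resMod_of_s46
    (h46 : ∀ W : WeierstrassCurve ℤ, W.Δ ≠ 0 → W.IsSemistableModel → W.ModRepIsIrreducible 3 →
      ∃ (N : ℕ) (_ : NeZero N) (a : ℕ → ℤ),
        CuspForm.HasIntegralBasis N ∧
        FormalHecke.IsEigensystem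
          (fun ℓ => if ℓ ∣ N then 0 else ((chiNegThree ℓ : ℤ) : ℤ)) a ∧
        CuspForm.IsLatticeRealized N a ∧
        (∀ q : ℕ, q.Prime → q ≠ 3 → ¬ q ^ 3 ∣ N) ∧
        ∀ ℓ : ℕ, ℓ.Prime → W.IsGoodPrimeFor ℓ → ¬ ℓ ∣ N → ℓ ≠ 3 →
          (3 : ℤ) ∣ (a ℓ - W.apOfModel ℓ))
    (W : WeierstrassCurve ℤ) (hΔ : W.Δ ≠ 0) (hW : W.IsSemistableModel)
    (h3 : W.ModRepIsIrreducible 3) :
    ∃ M : ℕ, 0 < M ∧ W.IsResiduallyModularOfLevel 3 M ∧
      (∀ q : ℕ, q.Prime → q ≠ 3 → ¬ q ^ 3 ∣ M) := by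
  obtain ⟨N, hN, a, hbasis, heig, hreal, hcube, hcong⟩ := h46 W hΔ hW h3
  exact ⟨N, Nat.pos_of_ne_zero hN.out,
    isResiduallyModularOfLevel_three_of_lattice W N a hbasis heig hreal hcong, hcube⟩

end Fermat.Agent.W.Chain.H59
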