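import Fermat.Agent.S03.Wiring
import Fermat.Agent.S07
import Fermat.Agent.S09
import Fermat.Agent.S45

/-!
# W-CHAIN (item 77), second half, heavy part (helper59)

`s03_of_s04` : the type of the frozen S04 (the Frey curve is modular) gives the type of the
frozen S03 (no Frey package exists), with the landed `S09.result` (Mazur), `S45.result`
(level lowering to level 2) and `S07.result` (no cusp form of weight 2 on `Γ₀(2)`).
Closure: `S45` (which contains `S43`, `S44`, `S36`, ...) and `S09`.
-/

set_option autoImplicit false

open WeierstrassCurve WeierstrassCurve.Affine WeierstrassCurve.Affine.Point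

namespace Fermat.Agent.W.Chain.H59

/-- **S04 ⟹ S03.** -/
theorem s03_of_s04 (h04 : ∀ P : FreyPackage, P.freyCurve.IsModular) :
    ∀ _ : FreyPackage, False :=
  fun P => Fermat.Agent.S03.no_frey_of_inputs h04
    (fun P => Fermat.Agent.S09.result P)
    (fun P hmod hirr => Fermat.Agent.S45.result P hmod hirr)
    (fun f => Fermat.Agent.S07.result f) P

end Fermat.Agent.W.Chain.H59
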