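import Fermat.Agent.S01.Wiring
import Fermat.Agent.S02
import Fermat.Prelude.Def_FLTPrelim_ModularRep
import Fermat.Prelude.Def_FreyPackage_IsConductorLevel

/-!
# W-CHAIN (item 77), second half, light part (helper59)

Conditional chain below "no Frey package exists" (the type of the frozen S03).  Every theorem
here has the shape `hypothesis (a frozen type, as a Prop) -> frozen type`; nothing unfinished is
imported.  The closure is `S02` + `S01/Wiring` only.

* `s01_of_s03` : the type of S03 gives the type of S01 (with the landed `S02.result` and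
  Mathlib's exponents 3 and 4);
* `s04_of_s03`, `s06_of_s03` : the types of S04 and S06 from the type of S03 (no Frey package
  exists, so every statement about a Frey package holds).
-/

set_option autoImplicit false

namespace Fermat.Agent.W.Chain.H59

/-- **S03 ⟹ S01.** -/
theorem s01_of_s03 (h03 : ∀ _ : FreyPackage, False) :
    ∀ (n : ℕ) (_ : 3 ≤ n) (a b c : ℕ) (_ : 0 < a) (_ : 0 < b) (_ : 0 < c),
      a ^ n + b ^ n ≠ c ^ n :=
  fun n hn a b c ha hb hc =>
    Fermat.Agent.S01.root_of_frey
      (fun a b c ha hb hc p pp hp5 H => Fermat.Agent.S02.result a b c ha hb hc p pp hp5 H)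
      h03 n hn a b c ha hb hc

/-- **S03 ⟹ S04** (no Frey package exists). -/
theorem s04_of_s03 (h03 : ∀ _ : FreyPackage, False) :
    ∀ P : FreyPackage, P.freyCurve.IsModular :=
  fun P => (h03 P).elim

/-- **S03 ⟹ S06** (no Frey package exists). -/
theorem s06_of_s03 (h03 : ∀ _ : FreyPackage, False) :
    ∀ P : FreyPackage, ∃ N : ℕ, P.IsConductorLevel N ∧ P.ModularRepOfLevel N :=
  fun P => (h03 P).elim

end Fermat.Agent.W.Chain.H59
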