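import Fermat.Agent.W.Chain.H4_Spine
import Fermat.Agent.W.Chain.H59_Tail03
import Fermat.Agent.W.Chain.H59_TailLight
import Fermat.Agent.S51
import Fermat.Agent.S52
import Fermat.Agent.S59

/-!
# W-CHAIN (item 77): the whole chain, kernel-checked up to ONE `Prop` (helper59)

With the landed rows plugged in (S02, S07, S09, S45, S51, S52, S59; S43, S44, S36, S58 sit inside
them), every open row below row 42 follows from the STRONG Langlands-Tunnell statement
`Stmt_LT9`, hence from the frozen S50 together with the lowering at 3 (`Stmt_LL3`):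

  `s60_of_lt9'`, `s04_of_lt9`, `s06_of_lt9`, `s03_of_lt9`, `s01_of_lt9`      (from `Stmt_LT9`),
  `s60_of_s50`, `s04_of_s50`, `s06_of_s50`, `s03_of_s50`, `s01_of_s50`        (from `Stmt_S50`
                                                                               and `Stmt_LL3`).

These are NOT solutions of S60, S04, S06, S03, S01: each has a hypothesis.  They say that row 42
(in the form S50) and the lowering at 3 are the only statements that are still to be supplied.
Closure: the union of the closures of S59, S45, S09 (about 3.5k modules).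
-/

set_option autoImplicit false

open WeierstrassCurve

namespace Fermat.Agent.W.Chain.H59

open Fermat.Agent.W.Chain

/-- The landed S51, as the `Prop` of `Defs`. -/
theorem row_S51 : Stmt_S51 := fun W hΔ hW => Fermat.Agent.S51.result W hΔ hW

/-- The landed S52, as the `Prop` of `Defs`. -/
theorem row_S52 : Stmt_S52 := fun W hΔ hW h5 => Fermat.Agent.S52.result W hΔ hW h5

/-- The landed S59, as the `Prop` of `Defs`. -/
theorem row_S59 : Stmt_S59 := fun p hp W hΔ hW hirr M₀ _ hres hM₀ hM₀3 =>
  Fermat.Agent.S59.result p hp W hΔ hW hirr M₀ hres hM₀ hM₀3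

/-- Exact-conductor modularity of all semistable curves from strong LT. -/
theorem mlc_of_lt9' (hLT : Stmt_LT9) : Stmt_MLC := mlc_of_lt9 row_S51 row_S52 row_S59 hLT

/-- **S60 from strong LT.** -/
theorem s60_of_lt9' (hLT : Stmt_LT9) : Stmt_S60 := s60_of_mlc (mlc_of_lt9' hLT)

/-- **S04 from strong LT.** -/
theorem s04_of_lt9 (hLT : Stmt_LT9) : Stmt_S04 := s04_of_mlc (mlc_of_lt9' hLT)

/-- **S06 from strong LT.** -/
theorem s06_of_lt9 (hLT : Stmt_LT9) : Stmt_S06 := s06_of_mlc (mlc_of_lt9' hLT)

/-- **S03 from strong LT.** -/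
theorem s03_of_lt9 (hLT : Stmt_LT9) : Stmt_S03 := s03_of_s04 (s04_of_lt9 hLT)

/-- **S01 from strong LT.** -/
theorem s01_of_lt9 (hLT : Stmt_LT9) : Stmt_S01 := s01_of_s03 (s03_of_lt9 hLT)

/-- **S60 from the frozen S50 and the lowering at 3.** -/
theorem s60_of_s50 (h50 : Stmt_S50) (hLL : Stmt_LL3) : Stmt_S60 :=
  s60_of_lt9' (lt9_of_s50_of_ll3 h50 hLL)

/-- **S04 from the frozen S50 and the lowering at 3.** -/
theorem s04_of_s50 (h50 : Stmt_S50) (hLL : Stmt_LL3) : Stmt_S04 :=
  s04_of_lt9 (lt9_of_s50_of_ll3 h50 hLL)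

/-- **S06 from the frozen S50 and the lowering at 3.** -/
theorem s06_of_s50 (h50 : Stmt_S50) (hLL : Stmt_LL3) : Stmt_S06 :=
  s06_of_lt9 (lt9_of_s50_of_ll3 h50 hLL)

/-- **S03 from the frozen S50 and the lowering at 3.** -/
theorem s03_of_s50 (h50 : Stmt_S50) (hLL : Stmt_LL3) : Stmt_S03 :=
  s03_of_lt9 (lt9_of_s50_of_ll3 h50 hLL)

/-- **S01 (Fermat's Last Theorem) from the frozen S50 and the lowering at 3.** -/
theorem s01_of_s50 (h50 : Stmt_S50) (hLL : Stmt_LL3) : Stmt_S01 :=
  s01_of_lt9 (lt9_of_s50_of_ll3 h50 hLL)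

end Fermat.Agent.W.Chain.H59
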